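/-
S56 / FLAT (architect helper116): THE INTERFACE between the geometric part (models, Fontaine's
lemma, ramification bound) and the count F5.
ALL the exports are FINAL: in final files import `Fermat.Agent.S56.Flat.Export` and, for (RAM)
`FlatLoc.kummer_level`, `Fermat.Agent.S56.Flat.Ram.Main`.  This file is only a forwarder.
-/
import Fermat.Agent.S56.Flat.Export
import Fermat.Agent.S56.Flat.Ram.Main
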